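import Mathlib

/-!
# Abstract transfer lemmas (helper57, S16 package (L)-HECKE-COH)

`G` a group, `H ≤ G` of finite index, `B` a commutative group.  Formulas for Mathlib's
`MonoidHom.transfer` with explicit transversals, and its basic functorialities.
-/

set_option autoImplicit false
set_option linter.unusedSectionVars false

open Subgroup Subgroup.leftTransversals MulAction

namespace Fermat.Agent.S16.HeckeCoh57

variable {G : Type*} [Group G] {H : Subgroup G}

section Mul

variable {B : Type*} [CommGroup B] (ϕ : H →* B)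

/-- The transfer computed with a transversal given by an explicit section
`sec : G ⧸ H → G`. -/
theorem transfer_eq_prod_of_sec [H.FiniteIndex] [Fintype (G ⧸ H)] (sec : G ⧸ H → G)
    (hsec : ∀ q, (sec q : G ⧸ H) = q) (g : G) :
    MonoidHom.transfer ϕ g =
      ∏ q : G ⧸ H, ϕ ⟨(sec q)⁻¹ * (g * sec (g⁻¹ • q)), by
        rw [← QuotientGroup.eq, hsec]
        show q = g • ((sec (g⁻¹ • q) : G) : G ⧸ H)
        rw [hsec, smul_inv_smul]⟩ := by
  classical
  let T : H.LeftTransversal := ⟨Set.range sec, isComplement_range_left hsec⟩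
  rw [MonoidHom.transfer_def ϕ T g]
  unfold diff
  simp only
  refine Finset.prod_congr (by ext; simp) fun q _ => ?_
  congr 1
  apply Subtype.ext
  show ((T.2.leftQuotientEquiv q : G))⁻¹ * ((g • T).2.leftQuotientEquiv q : G) = _
  rw [smul_apply_eq_smul_apply_inv_smul]
  have h1 : ∀ q', (T.2.leftQuotientEquiv q' : G) = sec q' := fun q' =>
    IsComplement.leftQuotientEquiv_apply hsec q'
  rw [h1, h1]
  rfl

/-- An explicitly indexed left transversal: `s : I → G` with a coset-index function `κ`. -/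
structure IsIndexedTransversal (H : Subgroup G) {I : Type*} (s : I → G) (κ : G → I) : Prop where
  mem : ∀ g, (s (κ g))⁻¹ * g ∈ H
  idx : ∀ i (h : G), h ∈ H → κ (s i * h) = i

namespace IsIndexedTransversal

variable {I : Type*} {s : I → G} {κ : G → I} (hT : IsIndexedTransversal H s κ)

include hT

theorem idx_self (i : I) : κ (s i) = i := by
  have := hT.idx i 1 H.one_mem
  rwa [mul_one] at this

theorem idx_eq_of_mem {g g' : G} (h : g⁻¹ * g' ∈ H) : κ g' = κ g := by
  have h0 := hT.mem g
  have : g' = s (κ g) * (((s (κ g))⁻¹ * g) * (g⁻¹ * g')) := by group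
  rw [this]
  exact hT.idx _ _ (H.mul_mem h0 h)

/-- The induced bijection `I ≃ G ⧸ H`. -/
noncomputable def equivQuot : I ≃ G ⧸ H where
  toFun i := (s i : G ⧸ H)
  invFun := Quotient.lift κ (fun a b hab => by
    have : a⁻¹ * b ∈ H := QuotientGroup.leftRel_apply.mp hab
    exact (hT.idx_eq_of_mem this).symm)
  left_inv i := hT.idx_self i
  right_inv q := by
    induction q using QuotientGroup.induction_on with
    | H g =>
      show ((s (κ g) : G) : G ⧸ H) = (g : G ⧸ H)
      exact QuotientGroup.eq.mpr (hT.mem g)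

theorem equivQuot_apply (i : I) : hT.equivQuot i = (s i : G ⧸ H) := rfl

theorem equivQuot_symm_mk (g : G) : hT.equivQuot.symm (g : G ⧸ H) = κ g := rfl

theorem finiteIndex [Finite I] : H.FiniteIndex := by
  have : Finite (G ⧸ H) := Finite.of_equiv I hT.equivQuot
  exact Subgroup.finiteIndex_of_finite_quotient

theorem index_eq [Fintype I] : H.index = Fintype.card I := by
  rw [Subgroup.index, Nat.card_congr hT.equivQuot.symm, Nat.card_eq_fintype_card]

theorem conj_mem (g : G) (i : I) : (s i)⁻¹ * (g * s (κ (g⁻¹ * s i))) ∈ H := by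
  have h := hT.mem (g⁻¹ * s i)
  have : (s i)⁻¹ * (g * s (κ (g⁻¹ * s i))) = ((s (κ (g⁻¹ * s i)))⁻¹ * (g⁻¹ * s i))⁻¹ := by group
  rw [this]
  exact H.inv_mem h

/-- The transfer computed with an explicitly indexed transversal. -/
theorem transfer_eq_prod [H.FiniteIndex] [Fintype I] (g : G) :
    MonoidHom.transfer ϕ g =
      ∏ i : I, ϕ ⟨(s i)⁻¹ * (g * s (κ (g⁻¹ * s i))), hT.conj_mem g i⟩ := by
  classical
  let _ : Fintype (G ⧸ H) := Fintype.ofEquiv I hT.equivQuot
  have hsec : ∀ q : G ⧸ H, ((s (hT.equivQuot.symm q) : G) : G ⧸ H) = q := fun q =>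
    hT.equivQuot.apply_symm_apply q
  rw [transfer_eq_prod_of_sec ϕ (fun q => s (hT.equivQuot.symm q)) hsec g]
  rw [← hT.equivQuot.prod_comp]
  refine Finset.prod_congr rfl fun i _ => ?_
  congr 1
  apply Subtype.ext
  show (s (hT.equivQuot.symm (hT.equivQuot i)))⁻¹ *
      (g * s (hT.equivQuot.symm (g⁻¹ • hT.equivQuot i))) = _
  rw [Equiv.symm_apply_apply]
  rfl

/-- The map `i ↦ κ (g⁻¹ * s i)` is a permutation of the index set. -/
theorem bijective_idx (g : G) : Function.Bijective fun i => κ (g⁻¹ * s i) := by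
  have h : (fun i => κ (g⁻¹ * s i)) =
      hT.equivQuot.symm ∘ (MulAction.toPerm (g⁻¹ : G) : G ⧸ H → G ⧸ H) ∘ hT.equivQuot := by
    funext i
    rfl
  rw [h]
  exact hT.equivQuot.symm.bijective.comp ((MulAction.toPerm (g⁻¹ : G)).bijective.comp
    hT.equivQuot.bijective)

/-- Transport of an indexed transversal along an automorphism preserving `H`. -/
theorem map (θ : G ≃* G) (hθ : ∀ g, θ g ∈ H ↔ g ∈ H) :
    IsIndexedTransversal H (fun i => θ (s i)) (fun g => κ (θ.symm g)) where
  mem g := by
    have h := hT.mem (θ.symm g)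
    have h2 : (θ (s (κ (θ.symm g))))⁻¹ * g = θ ((s (κ (θ.symm g)))⁻¹ * θ.symm g) := by
      rw [map_mul, map_inv, MulEquiv.apply_symm_apply]
    rw [h2]
    exact (hθ _).mpr h
  idx i h hh := by
    have h2 : θ.symm (θ (s i) * h) = s i * θ.symm h := by
      rw [map_mul, MulEquiv.symm_apply_apply]
    show κ (θ.symm (θ (s i) * h)) = i
    rw [h2]
    refine hT.idx i _ ?_
    rw [← hθ, MulEquiv.apply_symm_apply]
    exact hh

end IsIndexedTransversal

/-- The tautological indexed transversal. -/
theorem isIndexedTransversal_out :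
    IsIndexedTransversal H (fun q : G ⧸ H => q.out) (fun g => (g : G ⧸ H)) where
  mem g := by
    rw [← QuotientGroup.eq]
    exact QuotientGroup.out_eq' _
  idx q h hh := by
    show ((q.out * h : G) : G ⧸ H) = q
    have : ((q.out * h : G) : G ⧸ H) = (q.out : G ⧸ H) := by
      rw [QuotientGroup.eq]
      simpa using H.inv_mem hh
    rw [this]
    exact QuotientGroup.out_eq' _

/-- Transfer of the restriction of a homomorphism defined on all of `G`. -/
theorem transfer_restrict [H.FiniteIndex] (φ : G →* B) (g : G) :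
    MonoidHom.transfer (φ.comp H.subtype) g = φ g ^ H.index := by
  classical
  let _ : Fintype (G ⧸ H) := H.fintypeQuotientOfFiniteIndex
  have hT := isIndexedTransversal_out (G := G) (H := H)
  rw [hT.transfer_eq_prod (φ.comp H.subtype) g]
  have h1 : ∀ q : G ⧸ H, (φ.comp H.subtype) ⟨(q.out)⁻¹ * (g * ((g⁻¹ * q.out : G) : G ⧸ H).out),
      hT.conj_mem g q⟩ = (φ q.out)⁻¹ * φ g * φ (((g⁻¹ * q.out : G) : G ⧸ H).out) := by
    intro q
    simp only [MonoidHom.comp_apply, Subgroup.coe_subtype, map_mul, map_inv, mul_assoc]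
  simp only [h1]
  rw [Finset.prod_mul_distrib, Finset.prod_mul_distrib, Finset.prod_const, Finset.card_univ]
  have h2 : ∏ q : G ⧸ H, φ (((g⁻¹ * q.out : G) : G ⧸ H).out) = ∏ q : G ⧸ H, φ q.out := by
    have hb := hT.bijective_idx g
    exact Fintype.prod_bijective _ hb _ _ (fun q => rfl)
  rw [h2, Finset.prod_inv_distrib]
  rw [hT.index_eq]
  rw [mul_comm ((∏ q : G ⧸ H, φ q.out)⁻¹), mul_assoc, inv_mul_cancel, mul_one]

/-- Functoriality of the transfer in the coefficient group. -/
theorem transfer_comp [H.FiniteIndex] {B' : Type*} [CommGroup B'] (f : B →* B') (g : G) :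
    MonoidHom.transfer (f.comp ϕ) g = f (MonoidHom.transfer ϕ g) := by
  classical
  let _ : Fintype (G ⧸ H) := H.fintypeQuotientOfFiniteIndex
  have hT := isIndexedTransversal_out (G := G) (H := H)
  rw [hT.transfer_eq_prod (f.comp ϕ) g, hT.transfer_eq_prod ϕ g, map_prod]
  rfl

/-- Naturality of the transfer with respect to an automorphism preserving `H`. -/
theorem transfer_comp_equiv [H.FiniteIndex] (θ : G ≃* G) (hθ : ∀ g, θ g ∈ H ↔ g ∈ H)
    (θH : H →* H) (hθH : ∀ h : H, (θH h : G) = θ h) (g : G) :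
    MonoidHom.transfer (ϕ.comp θH) g = MonoidHom.transfer ϕ (θ g) := by
  classical
  let _ : Fintype (G ⧸ H) := H.fintypeQuotientOfFiniteIndex
  have hT := isIndexedTransversal_out (G := G) (H := H)
  have hT' := hT.map θ hθ
  rw [hT.transfer_eq_prod (ϕ.comp θH) g, hT'.transfer_eq_prod ϕ (θ g)]
  refine Finset.prod_congr rfl fun q _ => ?_
  rw [MonoidHom.comp_apply]
  congr 1
  apply Subtype.ext
  rw [hθH]
  show θ ((q.out)⁻¹ * (g * ((g⁻¹ * q.out : G) : G ⧸ H).out)) =
    (θ q.out)⁻¹ * (θ g * θ ((θ.symm ((θ g)⁻¹ * θ q.out) : G) : G ⧸ H).out)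
  have : θ.symm ((θ g)⁻¹ * θ q.out) = g⁻¹ * q.out := by
    rw [map_mul, map_inv, MulEquiv.symm_apply_apply, MulEquiv.symm_apply_apply]
  rw [this]
  simp only [map_mul, map_inv]

/-- If `ϕ` kills every element of `H` satisfying a predicate `P` that is stable under
conjugation and powers, then the transfer kills every element of `G` satisfying `P`. -/
theorem transfer_eq_one_of_pred [H.FiniteIndex] (P : G → Prop)
    (hconj : ∀ g x : G, P g → P (x⁻¹ * g * x)) (hpow : ∀ (g : G) (n : ℕ), P g → P (g ^ n))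
    (hϕ : ∀ h : H, P (h : G) → ϕ h = 1) (g : G) (hg : P g) :
    MonoidHom.transfer ϕ g = 1 := by
  classical
  let _ : Fintype (G ⧸ H) := H.fintypeQuotientOfFiniteIndex
  let _ : Fintype (Quotient (orbitRel (zpowers g) (G ⧸ H))) := Fintype.ofFinite _
  rw [MonoidHom.transfer_eq_prod_quotient_orbitRel_zpowers_quot]
  refine Finset.prod_eq_one fun q _ => ?_
  apply hϕ
  exact hconj _ _ (hpow g _ hg)

end Mul

end Fermat.Agent.S16.HeckeCoh57
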