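import Mathlib
import Fermat.Agent.S16.HeckeCoh57.Abstract

/-!
# Hecke operators on `Hom(Γ₀(N), A)` (helper57, S16 package (L)-HECKE-COH)

For a positive integer `ℓ`, `Hl N ℓ = {γ ∈ Γ₀(N) | ℓ ∣ b}` and
`cAl : Hl N ℓ →* Γ₀(N)`, `(a b; c d) ↦ (a, b/ℓ; ℓ c, d)` (conjugation by `diag(1, ℓ)`).
-/

set_option autoImplicit false

open CongruenceSubgroup Matrix
open scoped MatrixGroups

namespace Fermat.Agent.S16.HeckeCoh57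

/-- Constructor for elements of `SL(2, ℤ)`. -/
def mkSL (a b c d : ℤ) (h : a * d - b * c = 1) : SL(2, ℤ) :=
  ⟨!![a, b; c, d], by rw [Matrix.det_fin_two_of]; exact h⟩

@[simp] theorem mkSL_00 (a b c d : ℤ) (h : a * d - b * c = 1) : mkSL a b c d h 0 0 = a := rfl
@[simp] theorem mkSL_01 (a b c d : ℤ) (h : a * d - b * c = 1) : mkSL a b c d h 0 1 = b := rfl
@[simp] theorem mkSL_10 (a b c d : ℤ) (h : a * d - b * c = 1) : mkSL a b c d h 1 0 = c := rfl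
@[simp] theorem mkSL_11 (a b c d : ℤ) (h : a * d - b * c = 1) : mkSL a b c d h 1 1 = d := rfl

theorem SL_ext {g g' : SL(2, ℤ)} (h00 : g 0 0 = g' 0 0) (h01 : g 0 1 = g' 0 1)
    (h10 : g 1 0 = g' 1 0) (h11 : g 1 1 = g' 1 1) : g = g' := by
  apply Matrix.SpecialLinearGroup.ext
  intro i j
  fin_cases i <;> fin_cases j <;> assumption

theorem SL_det (g : SL(2, ℤ)) : g 0 0 * g 1 1 - g 0 1 * g 1 0 = 1 := by
  have := g.det_coe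
  rw [Matrix.det_fin_two] at this
  exact this

theorem SL_mul_00 (g g' : SL(2, ℤ)) : (g * g') 0 0 = g 0 0 * g' 0 0 + g 0 1 * g' 1 0 := by
  simp [Matrix.SpecialLinearGroup.coe_mul, Matrix.mul_apply, Fin.sum_univ_two]
theorem SL_mul_01 (g g' : SL(2, ℤ)) : (g * g') 0 1 = g 0 0 * g' 0 1 + g 0 1 * g' 1 1 := by
  simp [Matrix.SpecialLinearGroup.coe_mul, Matrix.mul_apply, Fin.sum_univ_two]
theorem SL_mul_10 (g g' : SL(2, ℤ)) : (g * g') 1 0 = g 1 0 * g' 0 0 + g 1 1 * g' 1 0 := by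
  simp [Matrix.SpecialLinearGroup.coe_mul, Matrix.mul_apply, Fin.sum_univ_two]
theorem SL_mul_11 (g g' : SL(2, ℤ)) : (g * g') 1 1 = g 1 0 * g' 0 1 + g 1 1 * g' 1 1 := by
  simp [Matrix.SpecialLinearGroup.coe_mul, Matrix.mul_apply, Fin.sum_univ_two]

theorem SL_inv_00 (g : SL(2, ℤ)) : g⁻¹ 0 0 = g 1 1 := by
  simp [Matrix.SpecialLinearGroup.coe_inv, Matrix.adjugate_fin_two]
theorem SL_inv_01 (g : SL(2, ℤ)) : g⁻¹ 0 1 = -g 0 1 := by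
  simp [Matrix.SpecialLinearGroup.coe_inv, Matrix.adjugate_fin_two]
theorem SL_inv_10 (g : SL(2, ℤ)) : g⁻¹ 1 0 = -g 1 0 := by
  simp [Matrix.SpecialLinearGroup.coe_inv, Matrix.adjugate_fin_two]
theorem SL_inv_11 (g : SL(2, ℤ)) : g⁻¹ 1 1 = g 0 0 := by
  simp [Matrix.SpecialLinearGroup.coe_inv, Matrix.adjugate_fin_two]

theorem SL_one_00 : (1 : SL(2, ℤ)) 0 0 = 1 := by simp
theorem SL_one_01 : (1 : SL(2, ℤ)) 0 1 = 0 := by simp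
theorem SL_one_10 : (1 : SL(2, ℤ)) 1 0 = 0 := by simp
theorem SL_one_11 : (1 : SL(2, ℤ)) 1 1 = 1 := by simp

theorem mem_Gamma0_iff_dvd {N : ℕ} {g : SL(2, ℤ)} : g ∈ Gamma0 N ↔ (N : ℤ) ∣ g 1 0 := by
  rw [Gamma0_mem, ZMod.intCast_zmod_eq_zero_iff_dvd]

variable (N ℓ : ℕ)

/-- `Γ₀(N) ∩ Γ⁰(ℓ)` as a subgroup of `Γ₀(N)`. -/
def Hl : Subgroup (Gamma0 N) where
  carrier := {g | (ℓ : ℤ) ∣ (g : SL(2, ℤ)) 0 1}
  one_mem' := by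
    show (ℓ : ℤ) ∣ ((1 : Gamma0 N) : SL(2, ℤ)) 0 1
    rw [OneMemClass.coe_one, SL_one_01]
    exact dvd_zero _
  mul_mem' := by
    intro g g' hg hg'
    show (ℓ : ℤ) ∣ ((g * g' : Gamma0 N) : SL(2, ℤ)) 0 1
    rw [MulMemClass.coe_mul, SL_mul_01]
    exact dvd_add (Dvd.dvd.mul_left hg' _) (Dvd.dvd.mul_right hg _)
  inv_mem' := by
    intro g hg
    show (ℓ : ℤ) ∣ ((g⁻¹ : Gamma0 N) : SL(2, ℤ)) 0 1
    rw [InvMemClass.coe_inv, SL_inv_01]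
    exact (dvd_neg).mpr hg

theorem mem_Hl_iff {g : Gamma0 N} : g ∈ Hl N ℓ ↔ (ℓ : ℤ) ∣ (g : SL(2, ℤ)) 0 1 := Iff.rfl

/-- The underlying function of `cAl`. -/
def cAlFun (h : Hl N ℓ) : Gamma0 N :=
  ⟨mkSL (((h : Gamma0 N) : SL(2, ℤ)) 0 0) (((h : Gamma0 N) : SL(2, ℤ)) 0 1 / ℓ)
      (ℓ * ((h : Gamma0 N) : SL(2, ℤ)) 1 0) (((h : Gamma0 N) : SL(2, ℤ)) 1 1) (by
        have hd : (ℓ : ℤ) ∣ ((h : Gamma0 N) : SL(2, ℤ)) 0 1 := h.2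
        have := SL_det ((h : Gamma0 N) : SL(2, ℤ))
        rw [← mul_assoc, Int.ediv_mul_cancel hd]
        exact this), by
    rw [mem_Gamma0_iff_dvd, mkSL_10]
    exact Dvd.dvd.mul_left (mem_Gamma0_iff_dvd.mp (h : Gamma0 N).2) _⟩

@[simp] theorem cAlFun_00 (h : Hl N ℓ) :
    ((cAlFun N ℓ h : Gamma0 N) : SL(2, ℤ)) 0 0 = ((h : Gamma0 N) : SL(2, ℤ)) 0 0 := rfl
@[simp] theorem cAlFun_01 (h : Hl N ℓ) :
    ((cAlFun N ℓ h : Gamma0 N) : SL(2, ℤ)) 0 1 = ((h : Gamma0 N) : SL(2, ℤ)) 0 1 / ℓ := rfl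
@[simp] theorem cAlFun_10 (h : Hl N ℓ) :
    ((cAlFun N ℓ h : Gamma0 N) : SL(2, ℤ)) 1 0 = ℓ * ((h : Gamma0 N) : SL(2, ℤ)) 1 0 := rfl
@[simp] theorem cAlFun_11 (h : Hl N ℓ) :
    ((cAlFun N ℓ h : Gamma0 N) : SL(2, ℤ)) 1 1 = ((h : Gamma0 N) : SL(2, ℤ)) 1 1 := rfl

theorem cAlFun_01_mul (h : Hl N ℓ) :
    (ℓ : ℤ) * ((cAlFun N ℓ h : Gamma0 N) : SL(2, ℤ)) 0 1 = ((h : Gamma0 N) : SL(2, ℤ)) 0 1 := by
  rw [cAlFun_01]
  exact Int.mul_ediv_cancel' h.2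

/-- Conjugation by `diag(1, ℓ)`: `(a b; c d) ↦ (a, b/ℓ; ℓ c, d)`. -/
def cAl [NeZero ℓ] : Hl N ℓ →* Gamma0 N where
  toFun := cAlFun N ℓ
  map_one' := by
    apply Subtype.ext
    apply SL_ext
    · rw [cAlFun_00]; rfl
    · rw [cAlFun_01]
      show ((1 : Gamma0 N) : SL(2, ℤ)) 0 1 / (ℓ : ℤ) = ((1 : Gamma0 N) : SL(2, ℤ)) 0 1
      rw [OneMemClass.coe_one, SL_one_01, Int.zero_ediv]
    · rw [cAlFun_10]
      show (ℓ : ℤ) * ((1 : Gamma0 N) : SL(2, ℤ)) 1 0 = ((1 : Gamma0 N) : SL(2, ℤ)) 1 0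
      rw [OneMemClass.coe_one, SL_one_10, mul_zero]
    · rw [cAlFun_11]; rfl
  map_mul' := by
    intro h h'
    have hℓ : (ℓ : ℤ) ≠ 0 := by exact_mod_cast NeZero.ne ℓ
    apply Subtype.ext
    have e1 := cAlFun_01_mul N ℓ h
    have e2 := cAlFun_01_mul N ℓ h'
    have e3 := cAlFun_01_mul N ℓ (h * h')
    have hc : (((h * h' : Hl N ℓ) : Gamma0 N) : SL(2, ℤ)) =
        ((h : Gamma0 N) : SL(2, ℤ)) * ((h' : Gamma0 N) : SL(2, ℤ)) := rfl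
    show ((cAlFun N ℓ (h * h') : Gamma0 N) : SL(2, ℤ)) =
      ((cAlFun N ℓ h : Gamma0 N) : SL(2, ℤ)) * ((cAlFun N ℓ h' : Gamma0 N) : SL(2, ℤ))
    apply SL_ext
    · rw [SL_mul_00, cAlFun_00, cAlFun_00, cAlFun_00, cAlFun_10, hc, SL_mul_00, ← e1]
      ring
    · apply mul_left_cancel₀ hℓ
      rw [e3, hc, SL_mul_01, SL_mul_01, cAlFun_00, cAlFun_11, ← e1, ← e2]
      ring
    · rw [SL_mul_10, cAlFun_10, cAlFun_10, cAlFun_10, cAlFun_00, cAlFun_11, hc, SL_mul_10]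
      ring
    · rw [SL_mul_11, cAlFun_11, cAlFun_11, cAlFun_11, cAlFun_10, hc, SL_mul_11, ← e2]
      ring

@[simp] theorem cAl_apply [NeZero ℓ] (h : Hl N ℓ) : cAl N ℓ h = cAlFun N ℓ h := rfl

end Fermat.Agent.S16.HeckeCoh57
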