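import Mathlib
import Fermat.Agent.S16.HeckeCoh57.Basic

/-!
# Explicit transversals of `Hl N ℓ` in `Γ₀(N)` (helper57)

`ℓ` prime.  Left coset representatives `sFin j = (1 -j; 0 1)` (`j < ℓ`) and, when `ℓ ∤ N`,
one more `sInf = (a₀ b₀; N ℓ)`.
-/

set_option autoImplicit false

open CongruenceSubgroup Matrix
open scoped MatrixGroups

namespace Fermat.Agent.S16.HeckeCoh57

variable (N ℓ : ℕ)

/-- `(1 -j; 0 1)` as an element of `Γ₀(N)`. -/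
def sFin (j : Fin ℓ) : Gamma0 N :=
  ⟨mkSL 1 (-(j : ℤ)) 0 1 (by ring), by
    rw [mem_Gamma0_iff_dvd, mkSL_10]; exact dvd_zero _⟩

@[simp] theorem sFin_00 (j : Fin ℓ) : ((sFin N ℓ j : Gamma0 N) : SL(2, ℤ)) 0 0 = 1 := rfl
@[simp] theorem sFin_01 (j : Fin ℓ) : ((sFin N ℓ j : Gamma0 N) : SL(2, ℤ)) 0 1 = -(j : ℤ) := rfl
@[simp] theorem sFin_10 (j : Fin ℓ) : ((sFin N ℓ j : Gamma0 N) : SL(2, ℤ)) 1 0 = 0 := rfl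
@[simp] theorem sFin_11 (j : Fin ℓ) : ((sFin N ℓ j : Gamma0 N) : SL(2, ℤ)) 1 1 = 1 := rfl

variable [Fact ℓ.Prime]

/-- The finite part of the coset index: `j ≡ -b d⁻¹ mod ℓ`. -/
def κFin (g : Gamma0 N) : Fin ℓ :=
  ⟨((-(((g : SL(2, ℤ)) 0 1 : ℤ) : ZMod ℓ)) * ((((g : SL(2, ℤ)) 1 1 : ℤ) : ZMod ℓ))⁻¹).val,
    ZMod.val_lt _⟩

theorem κFin_spec (g : Gamma0 N) (hd : ¬ (ℓ : ℤ) ∣ (g : SL(2, ℤ)) 1 1) :
    (ℓ : ℤ) ∣ (g : SL(2, ℤ)) 0 1 + (κFin N ℓ g : ℕ) * (g : SL(2, ℤ)) 1 1 := by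
  rw [← ZMod.intCast_zmod_eq_zero_iff_dvd]
  have hd' : ((((g : SL(2, ℤ)) 1 1 : ℤ)) : ZMod ℓ) ≠ 0 := by
    rwa [Ne, ZMod.intCast_zmod_eq_zero_iff_dvd]
  have : (((κFin N ℓ g : Fin ℓ) : ℕ) : ZMod ℓ) =
      (-(((g : SL(2, ℤ)) 0 1 : ℤ) : ZMod ℓ)) * ((((g : SL(2, ℤ)) 1 1 : ℤ) : ZMod ℓ))⁻¹ := by
    unfold κFin
    exact ZMod.natCast_zmod_val _
  rw [Int.cast_add, Int.cast_mul, Int.cast_natCast, this]
  field_simp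
  ring

theorem sFin_inv_mul_mem (g : Gamma0 N) (hd : ¬ (ℓ : ℤ) ∣ (g : SL(2, ℤ)) 1 1) :
    (sFin N ℓ (κFin N ℓ g))⁻¹ * g ∈ Hl N ℓ := by
  rw [mem_Hl_iff]
  show (ℓ : ℤ) ∣ (((sFin N ℓ (κFin N ℓ g) : Gamma0 N) : SL(2, ℤ))⁻¹ * (g : SL(2, ℤ))) 0 1
  rw [SL_mul_01, SL_inv_00, SL_inv_01, sFin_11, sFin_01]
  have := κFin_spec N ℓ g hd
  convert this using 1
  push_cast
  ring

theorem not_dvd_11_of_mem_Hl {h : Gamma0 N} (hh : h ∈ Hl N ℓ) :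
    ¬ (ℓ : ℤ) ∣ (h : SL(2, ℤ)) 1 1 := by
  intro hd
  have hdet := SL_det (h : SL(2, ℤ))
  have h1 : (ℓ : ℤ) ∣ (h : SL(2, ℤ)) 0 0 * (h : SL(2, ℤ)) 1 1 - (h : SL(2, ℤ)) 0 1 * (h : SL(2, ℤ)) 1 0 :=
    dvd_sub (Dvd.dvd.mul_left hd _) (Dvd.dvd.mul_right ((mem_Hl_iff N ℓ).mp hh) _)
  rw [hdet] at h1
  have := Int.le_of_dvd one_pos h1
  have h2 : (1 : ℤ) < ℓ := by exact_mod_cast (Fact.out : ℓ.Prime).one_lt
  omega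

theorem sFin_mul_11 (j : Fin ℓ) (h : Gamma0 N) :
    ((sFin N ℓ j * h : Gamma0 N) : SL(2, ℤ)) 1 1 = (h : SL(2, ℤ)) 1 1 := by
  show (((sFin N ℓ j : Gamma0 N) : SL(2, ℤ)) * (h : SL(2, ℤ))) 1 1 = _
  rw [SL_mul_11, sFin_10, sFin_11]
  ring

theorem sFin_mul_01 (j : Fin ℓ) (h : Gamma0 N) :
    ((sFin N ℓ j * h : Gamma0 N) : SL(2, ℤ)) 0 1 =
      (h : SL(2, ℤ)) 0 1 - (j : ℤ) * (h : SL(2, ℤ)) 1 1 := by
  show (((sFin N ℓ j : Gamma0 N) : SL(2, ℤ)) * (h : SL(2, ℤ))) 0 1 = _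
  rw [SL_mul_01, sFin_00, sFin_01]
  ring

theorem κFin_sFin_mul (j : Fin ℓ) {h : Gamma0 N} (hh : h ∈ Hl N ℓ) :
    κFin N ℓ (sFin N ℓ j * h) = j := by
  have hd := not_dvd_11_of_mem_Hl N ℓ hh
  have hd' : ((((h : SL(2, ℤ)) 1 1 : ℤ)) : ZMod ℓ) ≠ 0 := by
    rwa [Ne, ZMod.intCast_zmod_eq_zero_iff_dvd]
  have hb : ((((h : SL(2, ℤ)) 0 1 : ℤ)) : ZMod ℓ) = 0 := by
    rw [ZMod.intCast_zmod_eq_zero_iff_dvd]; exact (mem_Hl_iff N ℓ).mp hh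
  apply Fin.ext
  unfold κFin
  simp only
  rw [sFin_mul_11, sFin_mul_01]
  push_cast
  rw [hb, zero_sub, neg_neg, mul_assoc, mul_inv_cancel₀ hd', mul_one]
  rw [ZMod.val_natCast, Nat.mod_eq_of_lt j.isLt]

theorem not_dvd_11_of_dvd (hℓN : ℓ ∣ N) (g : Gamma0 N) : ¬ (ℓ : ℤ) ∣ (g : SL(2, ℤ)) 1 1 := by
  intro hd
  have hdet := SL_det (g : SL(2, ℤ))
  have hc : (ℓ : ℤ) ∣ (g : SL(2, ℤ)) 1 0 :=
    dvd_trans (Int.natCast_dvd_natCast.mpr hℓN) (mem_Gamma0_iff_dvd.mp g.2)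
  have h1 : (ℓ : ℤ) ∣ (g : SL(2, ℤ)) 0 0 * (g : SL(2, ℤ)) 1 1 - (g : SL(2, ℤ)) 0 1 * (g : SL(2, ℤ)) 1 0 :=
    dvd_sub (Dvd.dvd.mul_left hd _) (Dvd.dvd.mul_left hc _)
  rw [hdet] at h1
  have := Int.le_of_dvd one_pos h1
  have h2 : (1 : ℤ) < ℓ := by exact_mod_cast (Fact.out : ℓ.Prime).one_lt
  omega

/-- The transversal in the case `ℓ ∣ N` (operator `U_ℓ`). -/
theorem isIndexedTransversal_U (hℓN : ℓ ∣ N) :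
    IsIndexedTransversal (Hl N ℓ) (sFin N ℓ) (κFin N ℓ) where
  mem g := sFin_inv_mul_mem N ℓ g (not_dvd_11_of_dvd N ℓ hℓN g)
  idx j h hh := κFin_sFin_mul N ℓ j hh

/-- The extra coset representative `(a₀ b₀; N ℓ)` in the case `ℓ ∤ N`. -/
def sInf (hℓN : ¬ ℓ ∣ N) : Gamma0 N :=
  ⟨mkSL (Int.gcdA ℓ N) (-Int.gcdB ℓ N) N ℓ (by
    have hc : Nat.Coprime ℓ N := (Nat.Prime.coprime_iff_not_dvd Fact.out).mpr hℓN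
    have h := Int.gcd_eq_gcd_ab (ℓ : ℤ) (N : ℤ)
    have h1 : Int.gcd (ℓ : ℤ) (N : ℤ) = 1 := by
      rw [Int.gcd_natCast_natCast]; exact hc
    rw [h1] at h
    push_cast at h
    linarith), by
    rw [mem_Gamma0_iff_dvd, mkSL_10]⟩

@[simp] theorem sInf_10 (hℓN : ¬ ℓ ∣ N) : ((sInf N ℓ hℓN : Gamma0 N) : SL(2, ℤ)) 1 0 = N := rfl
@[simp] theorem sInf_11 (hℓN : ¬ ℓ ∣ N) : ((sInf N ℓ hℓN : Gamma0 N) : SL(2, ℤ)) 1 1 = ℓ := rfl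
@[simp] theorem sInf_00 (hℓN : ¬ ℓ ∣ N) :
    ((sInf N ℓ hℓN : Gamma0 N) : SL(2, ℤ)) 0 0 = Int.gcdA ℓ N := rfl
@[simp] theorem sInf_01 (hℓN : ¬ ℓ ∣ N) :
    ((sInf N ℓ hℓN : Gamma0 N) : SL(2, ℤ)) 0 1 = -Int.gcdB ℓ N := rfl

/-- Coset representatives in the case `ℓ ∤ N`. -/
def sT (hℓN : ¬ ℓ ∣ N) : Option (Fin ℓ) → Gamma0 N
  | none => sInf N ℓ hℓN
  | some j => sFin N ℓ j

open Classical in
/-- Coset index in the case `ℓ ∤ N`. -/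
noncomputable def κT (g : Gamma0 N) : Option (Fin ℓ) :=
  if (ℓ : ℤ) ∣ (g : SL(2, ℤ)) 1 1 then none else some (κFin N ℓ g)

/-- The transversal in the case `ℓ ∤ N` (operator `T_ℓ`). -/
theorem isIndexedTransversal_T (hℓN : ¬ ℓ ∣ N) :
    IsIndexedTransversal (Hl N ℓ) (sT N ℓ hℓN) (κT N ℓ) where
  mem g := by
    by_cases hd : (ℓ : ℤ) ∣ (g : SL(2, ℤ)) 1 1
    · have hκ : κT N ℓ g = none := by unfold κT; rw [if_pos hd]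
      rw [hκ]
      show (sInf N ℓ hℓN)⁻¹ * g ∈ Hl N ℓ
      rw [mem_Hl_iff]
      show (ℓ : ℤ) ∣ (((sInf N ℓ hℓN : Gamma0 N) : SL(2, ℤ))⁻¹ * (g : SL(2, ℤ))) 0 1
      rw [SL_mul_01, SL_inv_00, SL_inv_01, sInf_11, sInf_01]
      exact dvd_add (Dvd.intro _ rfl) (Dvd.dvd.mul_left hd _)
    · have hκ : κT N ℓ g = some (κFin N ℓ g) := by unfold κT; rw [if_neg hd]
      rw [hκ]
      exact sFin_inv_mul_mem N ℓ g hd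
  idx i h hh := by
    cases i with
    | none =>
      show κT N ℓ (sInf N ℓ hℓN * h) = none
      have hd : (ℓ : ℤ) ∣ ((sInf N ℓ hℓN * h : Gamma0 N) : SL(2, ℤ)) 1 1 := by
        show (ℓ : ℤ) ∣ (((sInf N ℓ hℓN : Gamma0 N) : SL(2, ℤ)) * (h : SL(2, ℤ))) 1 1
        rw [SL_mul_11, sInf_10, sInf_11]
        exact dvd_add (Dvd.dvd.mul_left ((mem_Hl_iff N ℓ).mp hh) _) (Dvd.intro _ rfl)
      unfold κT
      rw [if_pos hd]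
    | some j =>
      show κT N ℓ (sFin N ℓ j * h) = some j
      have hd : ¬ (ℓ : ℤ) ∣ ((sFin N ℓ j * h : Gamma0 N) : SL(2, ℤ)) 1 1 := by
        rw [sFin_mul_11]
        exact not_dvd_11_of_mem_Hl N ℓ hh
      unfold κT
      rw [if_neg hd, κFin_sFin_mul N ℓ j hh]

instance instFiniteIndexHl : (Hl N ℓ).FiniteIndex := by
  by_cases hℓN : ℓ ∣ N
  · exact (isIndexedTransversal_U N ℓ hℓN).finiteIndex
  · exact (isIndexedTransversal_T N ℓ hℓN).finiteIndex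

theorem index_Hl_of_dvd (hℓN : ℓ ∣ N) : (Hl N ℓ).index = ℓ := by
  rw [(isIndexedTransversal_U N ℓ hℓN).index_eq, Fintype.card_fin]

theorem index_Hl_of_not_dvd (hℓN : ¬ ℓ ∣ N) : (Hl N ℓ).index = ℓ + 1 := by
  rw [(isIndexedTransversal_T N ℓ hℓN).index_eq, Fintype.card_option, Fintype.card_fin]

end Fermat.Agent.S16.HeckeCoh57
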