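import Mathlib
import Fermat.Agent.S16.HeckeCoh57.Transversal
import Fermat.Prelude.Def_ModularCurve_PeriodHomPair

/-!
# The Hecke operators `T_ℓ` / `U_ℓ` on `Hom(Γ₀(N), A)` (helper57)

`heckeCoh N ℓ A φ` is the transfer of `φ ∘ cAl` from `Hl N ℓ` to `Γ₀(N)`.  For `ℓ ∤ N` this is
`T_ℓ` and for `ℓ ∣ N` it is `U_ℓ`.
-/

set_option autoImplicit false

open CongruenceSubgroup Matrix ModularCurve.Period
open scoped MatrixGroups

namespace Fermat.Agent.S16.HeckeCoh57

section AbstractAdd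

variable {G : Type*} [Group G] {H : Subgroup G} [H.FiniteIndex] {A : Type*} [AddCommGroup A]

/-- Additive form of Mathlib's transfer. -/
noncomputable def trAdd (ψ : Additive H →+ A) : Additive G →+ A :=
  MonoidHom.toAdditiveLeft (MonoidHom.transfer (AddMonoidHom.toMultiplicativeRight ψ))

theorem trAdd_apply (ψ : Additive H →+ A) (g : G) :
    trAdd ψ (Additive.ofMul g) =
      (MonoidHom.transfer (AddMonoidHom.toMultiplicativeRight ψ) g).toAdd := rfl

theorem trAdd_eq_sum {I : Type*} [Fintype I] {s : I → G} {κ : G → I}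
    (hT : IsIndexedTransversal H s κ) (ψ : Additive H →+ A) (g : G) :
    trAdd ψ (Additive.ofMul g) =
      ∑ i : I, ψ (Additive.ofMul ⟨(s i)⁻¹ * (g * s (κ (g⁻¹ * s i))), hT.conj_mem g i⟩) := by
  rw [trAdd_apply, hT.transfer_eq_prod, toAdd_prod]
  rfl

theorem trAdd_restrict (φ : Additive G →+ A) (g : G) :
    trAdd (φ.comp (MonoidHom.toAdditive H.subtype)) (Additive.ofMul g) =
      H.index • φ (Additive.ofMul g) := by
  rw [trAdd_apply]
  have h : AddMonoidHom.toMultiplicativeRight (φ.comp (MonoidHom.toAdditive H.subtype)) =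
      (AddMonoidHom.toMultiplicativeRight φ).comp H.subtype := rfl
  rw [h, transfer_restrict]
  rfl

theorem trAdd_comp {A' : Type*} [AddCommGroup A'] (f : A →+ A') (ψ : Additive H →+ A) :
    trAdd (f.comp ψ) = f.comp (trAdd ψ) := by
  refine AddMonoidHom.ext fun g => ?_
  obtain ⟨g, rfl⟩ := Additive.ofMul.surjective g
  rw [trAdd_apply]
  have h : AddMonoidHom.toMultiplicativeRight (f.comp ψ) =
      (AddMonoidHom.toMultiplicative f).comp (AddMonoidHom.toMultiplicativeRight ψ) := rfl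
  rw [h, transfer_comp]
  rfl

theorem trAdd_add (ψ ψ' : Additive H →+ A) : trAdd (ψ + ψ') = trAdd ψ + trAdd ψ' := by
  classical
  let _ : Fintype (G ⧸ H) := H.fintypeQuotientOfFiniteIndex
  have hT := isIndexedTransversal_out (G := G) (H := H)
  refine AddMonoidHom.ext fun g => ?_
  obtain ⟨g, rfl⟩ := Additive.ofMul.surjective g
  rw [AddMonoidHom.add_apply, trAdd_eq_sum hT, trAdd_eq_sum hT, trAdd_eq_sum hT,
    ← Finset.sum_add_distrib]
  rfl

theorem trAdd_zero : trAdd (0 : Additive H →+ A) = 0 := by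
  have h := trAdd_add (0 : Additive H →+ A) 0
  rw [add_zero] at h
  exact left_eq_add.mp h

theorem trAdd_eq_zero_of_pred (ψ : Additive H →+ A) (P : G → Prop)
    (hconj : ∀ g x : G, P g → P (x⁻¹ * g * x)) (hpow : ∀ (g : G) (n : ℕ), P g → P (g ^ n))
    (hψ : ∀ h : H, P (h : G) → ψ (Additive.ofMul h) = 0) (g : G) (hg : P g) :
    trAdd ψ (Additive.ofMul g) = 0 := by
  rw [trAdd_apply, transfer_eq_one_of_pred _ P hconj hpow _ g hg]
  · rfl
  · intro h hh
    show Multiplicative.ofAdd (ψ (Additive.ofMul h)) = 1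
    rw [hψ h hh]
    rfl

theorem trAdd_comp_equiv (ψ : Additive H →+ A) (θ : G ≃* G) (hθ : ∀ g, θ g ∈ H ↔ g ∈ H)
    (θH : H →* H) (hθH : ∀ h : H, (θH h : G) = θ h) (g : G) :
    trAdd (ψ.comp (MonoidHom.toAdditive θH)) (Additive.ofMul g) =
      trAdd ψ (Additive.ofMul (θ g)) := by
  rw [trAdd_apply, trAdd_apply]
  have h : AddMonoidHom.toMultiplicativeRight (ψ.comp (MonoidHom.toAdditive θH)) =
      (AddMonoidHom.toMultiplicativeRight ψ).comp θH := rfl
  rw [h, transfer_comp_equiv _ θ hθ θH hθH]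

end AbstractAdd

section Trace

/-- Cayley–Hamilton for `2 × 2` integer matrices of determinant one. -/
theorem sq_eq_of_det_one (M : Matrix (Fin 2) (Fin 2) ℤ) (hM : M.det = 1) :
    M * M = M.trace • M - 1 := by
  rw [Matrix.det_fin_two] at hM
  ext i j
  fin_cases i <;> fin_cases j <;>
    simp only [Matrix.mul_apply, Fin.sum_univ_two, Matrix.trace_fin_two, Matrix.sub_apply,
      Matrix.smul_apply, smul_eq_mul, Matrix.one_apply_eq, Fin.zero_eta, Fin.mk_one, Fin.isValue,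
      ne_eq, zero_ne_one, one_ne_zero, not_false_eq_true, Matrix.one_apply_ne, sub_zero] <;>
    linarith

theorem trace_pow_sq (M : Matrix (Fin 2) (Fin 2) ℤ) (hM : M.det = 1) (ht : M.trace ^ 2 = 4)
    (n : ℕ) : (M ^ n).trace ^ 2 = 4 := by
  -- `trace (M ^ n) = 2 ε ^ n` where `trace M = 2 ε`, `ε = ± 1`
  have hε : M.trace = 2 ∨ M.trace = -2 := by
    have h : (M.trace - 2) * (M.trace + 2) = 0 := by ring_nf; linarith
    rcases mul_eq_zero.mp h with h | h
    · left; linarith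
    · right; linarith
  have hrec : ∀ n : ℕ, (M ^ (n + 2)).trace = M.trace * (M ^ (n + 1)).trace - (M ^ n).trace := by
    intro n
    rw [pow_add, pow_two, sq_eq_of_det_one M hM, mul_sub, mul_one, Matrix.mul_smul,
      Matrix.trace_sub, Matrix.trace_smul, ← pow_succ, smul_eq_mul]
  have key : ∀ n : ℕ, (M ^ n).trace ^ 2 = 4 ∧ (M ^ (n + 1)).trace ^ 2 = 4 ∧
      (M ^ (n + 1)).trace * 2 = M.trace * (M ^ n).trace := by
    intro n
    induction n with
    | zero =>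
      refine ⟨?_, ?_, ?_⟩
      · rw [pow_zero, Matrix.trace_one]; simp
      · rw [zero_add, pow_one]; exact ht
      · rw [zero_add, pow_one, pow_zero, Matrix.trace_one]; simp [mul_comm]
    | succ n ih =>
      obtain ⟨h0, h1, h2⟩ := ih
      have h3 : (M ^ (n + 1 + 1)).trace * 2 = M.trace * (M ^ (n + 1)).trace := by
        rw [hrec n]
        have : M.trace * (M.trace * (M ^ n).trace) = 4 * (M ^ n).trace := by
          rw [← mul_assoc, ← pow_two, ht]
        nlinarith [this, h2]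
      refine ⟨h1, ?_, h3⟩
      have : ((M ^ (n + 1 + 1)).trace * 2) ^ 2 = 16 := by
        rw [h3, mul_pow, ht, h1]; norm_num
      nlinarith [this]
  exact (key n).1

end Trace

section Concrete

variable (N ℓ : ℕ) [Fact ℓ.Prime] (A : Type*) [AddCommGroup A]

/-- The Hecke operator `T_ℓ` (`ℓ ∤ N`) or `U_ℓ` (`ℓ ∣ N`) on `Hom(Γ₀(N), A)`. -/
noncomputable def heckeCoh : (Additive (Gamma0 N) →+ A) →+ (Additive (Gamma0 N) →+ A) where
  toFun φ := trAdd (φ.comp (MonoidHom.toAdditive (cAl N ℓ)))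
  map_zero' := by rw [AddMonoidHom.zero_comp, trAdd_zero]
  map_add' φ ψ := by rw [AddMonoidHom.add_comp, trAdd_add]

theorem heckeCoh_apply (φ : Additive (Gamma0 N) →+ A) :
    heckeCoh N ℓ A φ = trAdd (φ.comp (MonoidHom.toAdditive (cAl N ℓ))) := rfl

/-- Explicit formula with an indexed transversal. -/
theorem heckeCoh_eq_sum {I : Type*} [Fintype I] {s : I → Gamma0 N} {κ : Gamma0 N → I}
    (hT : IsIndexedTransversal (Hl N ℓ) s κ) (φ : Additive (Gamma0 N) →+ A) (g : Gamma0 N) :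
    heckeCoh N ℓ A φ (Additive.ofMul g) =
      ∑ i : I, φ (Additive.ofMul
        (cAl N ℓ ⟨(s i)⁻¹ * (g * s (κ (g⁻¹ * s i))), hT.conj_mem g i⟩)) := by
  rw [heckeCoh_apply, trAdd_eq_sum hT]
  rfl

/-- Functoriality in the coefficient group. -/
theorem heckeCoh_comp {A' : Type*} [AddCommGroup A'] (f : A →+ A')
    (φ : Additive (Gamma0 N) →+ A) :
    heckeCoh N ℓ A' (f.comp φ) = f.comp (heckeCoh N ℓ A φ) := by
  rw [heckeCoh_apply, heckeCoh_apply, AddMonoidHom.comp_assoc, trAdd_comp]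

/-- If `φ` does not see the conjugation `cAl` (e.g. `φ` factors through the lower right entry
modulo a divisor of `N`), then `heckeCoh φ = [Γ₀(N) : Hl] • φ`. -/
theorem heckeCoh_of_comp_eq (φ : Additive (Gamma0 N) →+ A)
    (h : ∀ x : Hl N ℓ, φ (Additive.ofMul (cAl N ℓ x)) = φ (Additive.ofMul (x : Gamma0 N))) :
    heckeCoh N ℓ A φ = (Hl N ℓ).index • φ := by
  refine AddMonoidHom.ext fun g => ?_
  obtain ⟨g, rfl⟩ := Additive.ofMul.surjective g
  rw [heckeCoh_apply]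
  have h2 : φ.comp (MonoidHom.toAdditive (cAl N ℓ)) =
      φ.comp (MonoidHom.toAdditive (Hl N ℓ).subtype) := by
    refine AddMonoidHom.ext fun x => ?_
    obtain ⟨x, rfl⟩ := Additive.ofMul.surjective x
    exact h x
  rw [h2, trAdd_restrict]
  rfl

theorem heckeCoh_of_comp_eq_of_not_dvd (hℓN : ¬ ℓ ∣ N) (φ : Additive (Gamma0 N) →+ A)
    (h : ∀ x : Hl N ℓ, φ (Additive.ofMul (cAl N ℓ x)) = φ (Additive.ofMul (x : Gamma0 N))) :
    heckeCoh N ℓ A φ = (ℓ + 1) • φ := by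
  rw [heckeCoh_of_comp_eq N ℓ A φ h, index_Hl_of_not_dvd N ℓ hℓN]

theorem heckeCoh_of_comp_eq_of_dvd (hℓN : ℓ ∣ N) (φ : Additive (Gamma0 N) →+ A)
    (h : ∀ x : Hl N ℓ, φ (Additive.ofMul (cAl N ℓ x)) = φ (Additive.ofMul (x : Gamma0 N))) :
    heckeCoh N ℓ A φ = ℓ • φ := by
  rw [heckeCoh_of_comp_eq N ℓ A φ h, index_Hl_of_dvd N ℓ hℓN]

theorem trace_cAl (x : Hl N ℓ) :
    (((cAl N ℓ x : Gamma0 N) : SL(2, ℤ)) : Matrix (Fin 2) (Fin 2) ℤ).trace =
      ((((x : Gamma0 N) : SL(2, ℤ))) : Matrix (Fin 2) (Fin 2) ℤ).trace := by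
  rw [Matrix.trace_fin_two, Matrix.trace_fin_two]
  rfl

/-- `heckeCoh` preserves parabolic homomorphisms (Prelude `IsParabolicHom`). -/
theorem heckeCoh_isParabolicHom {φ : Additive (Gamma0 N) →+ A}
    (hφ : IsParabolicHom (Gamma0 N) φ) : IsParabolicHom (Gamma0 N) (heckeCoh N ℓ A φ) := by
  intro g hg
  rw [heckeCoh_apply]
  refine trAdd_eq_zero_of_pred _
    (fun g : Gamma0 N => ((g : SL(2, ℤ)) : Matrix (Fin 2) (Fin 2) ℤ).trace ^ 2 = 4)
    ?_ ?_ ?_ g hg
  · intro g x hg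
    have : (((x⁻¹ * g * x : Gamma0 N) : SL(2, ℤ)) : Matrix (Fin 2) (Fin 2) ℤ) =
        (((x⁻¹ : Gamma0 N) : SL(2, ℤ)) : Matrix (Fin 2) (Fin 2) ℤ) *
          (((g : SL(2, ℤ)) : Matrix (Fin 2) (Fin 2) ℤ) *
            ((x : SL(2, ℤ)) : Matrix (Fin 2) (Fin 2) ℤ)) := by
      rw [mul_assoc]; rfl
    show (((x⁻¹ * g * x : Gamma0 N) : SL(2, ℤ)) : Matrix (Fin 2) (Fin 2) ℤ).trace ^ 2 = 4
    rw [this, Matrix.trace_mul_comm, mul_assoc]
    have h2 : ((x : SL(2, ℤ)) : Matrix (Fin 2) (Fin 2) ℤ) *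
        (((x⁻¹ : Gamma0 N) : SL(2, ℤ)) : Matrix (Fin 2) (Fin 2) ℤ) = 1 := by
      have : (x : SL(2, ℤ)) * ((x⁻¹ : Gamma0 N) : SL(2, ℤ)) = 1 := by
        rw [InvMemClass.coe_inv, mul_inv_cancel]
      rw [← Matrix.SpecialLinearGroup.coe_mul, this, Matrix.SpecialLinearGroup.coe_one]
    rw [h2, mul_one]
    exact hg
  · intro g n hg
    have : (((g ^ n : Gamma0 N) : SL(2, ℤ)) : Matrix (Fin 2) (Fin 2) ℤ) =
        ((g : SL(2, ℤ)) : Matrix (Fin 2) (Fin 2) ℤ) ^ n := by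
      rw [SubmonoidClass.coe_pow, Matrix.SpecialLinearGroup.coe_pow]
    show (((g ^ n : Gamma0 N) : SL(2, ℤ)) : Matrix (Fin 2) (Fin 2) ℤ).trace ^ 2 = 4
    rw [this]
    exact trace_pow_sq _ (g : SL(2, ℤ)).det_coe hg n
  · intro x hx
    show φ (Additive.ofMul (cAl N ℓ x)) = 0
    apply hφ
    rw [trace_cAl]
    exact hx

/-- `heckeCoh` preserves vanishing on elements of finite order. -/
theorem heckeCoh_finOrder {φ : Additive (Gamma0 N) →+ A}
    (hφ : ∀ g : Gamma0 N, IsOfFinOrder g → φ (Additive.ofMul g) = 0)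
    (g : Gamma0 N) (hg : IsOfFinOrder g) : heckeCoh N ℓ A φ (Additive.ofMul g) = 0 := by
  rw [heckeCoh_apply]
  refine trAdd_eq_zero_of_pred _ (fun g : Gamma0 N => IsOfFinOrder g) ?_ ?_ ?_ g hg
  · intro g x hg
    have hc : IsConj g (x⁻¹ * g * x) := by
      rw [isConj_iff]
      exact ⟨x⁻¹, by group⟩
    exact hc.isOfFinOrder hg
  · intro g n hg
    exact hg.pow
  · intro x hx
    show φ (Additive.ofMul (cAl N ℓ x)) = 0
    apply hφ
    have hx' : IsOfFinOrder x := Submonoid.isOfFinOrder_coe.mp hx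
    exact (cAl N ℓ).isOfFinOrder hx'

end Concrete

end Fermat.Agent.S16.HeckeCoh57
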