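import Mathlib
import Fermat.Agent.S16.HeckeCoh57.Hecke

/-!
# `heckeCoh` commutes with the Prelude `charInvolution` (helper57)
-/

set_option autoImplicit false

open CongruenceSubgroup Matrix ModularCurve.Period
open scoped MatrixGroups

namespace Fermat.Agent.S16.HeckeCoh57

variable (N ℓ : ℕ)

/-- `jConjGamma0` as a multiplicative equivalence. -/
def jEquiv : Gamma0 N ≃* Gamma0 N where
  toFun := jConjGamma0 N
  invFun := jConjGamma0 N
  left_inv := jConjGamma0_jConjGamma0 N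
  right_inv := jConjGamma0_jConjGamma0 N
  map_mul' := map_mul _

@[simp] theorem jEquiv_apply (g : Gamma0 N) : jEquiv N g = jConjGamma0 N g := rfl

theorem jConj_00 (g : Gamma0 N) :
    ((jConjGamma0 N g : Gamma0 N) : SL(2, ℤ)) 0 0 = (g : SL(2, ℤ)) 0 0 := by
  show jConjMat _ 0 0 = _
  rw [jConjMat_apply_zero_zero]
theorem jConj_01 (g : Gamma0 N) :
    ((jConjGamma0 N g : Gamma0 N) : SL(2, ℤ)) 0 1 = -(g : SL(2, ℤ)) 0 1 := by
  show jConjMat _ 0 1 = _
  rw [jConjMat_apply_zero_one]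
theorem jConj_10 (g : Gamma0 N) :
    ((jConjGamma0 N g : Gamma0 N) : SL(2, ℤ)) 1 0 = -(g : SL(2, ℤ)) 1 0 := by
  show jConjMat _ 1 0 = _
  rw [jConjMat_apply_one_zero]
theorem jConj_11 (g : Gamma0 N) :
    ((jConjGamma0 N g : Gamma0 N) : SL(2, ℤ)) 1 1 = (g : SL(2, ℤ)) 1 1 := by
  show jConjMat _ 1 1 = _
  rw [jConjMat_apply_one_one]

theorem jConj_mem_Hl_iff (g : Gamma0 N) : jEquiv N g ∈ Hl N ℓ ↔ g ∈ Hl N ℓ := by
  rw [mem_Hl_iff, mem_Hl_iff, jEquiv_apply, jConj_01, dvd_neg]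

/-- The restriction of `jConjGamma0` to `Hl`. -/
def jH : Hl N ℓ →* Hl N ℓ :=
  MonoidHom.codRestrict ((jConjGamma0 N).comp (Hl N ℓ).subtype) (Hl N ℓ)
    (fun x => (jConj_mem_Hl_iff N ℓ (x : Gamma0 N)).mpr x.2)

theorem jH_coe (x : Hl N ℓ) : ((jH N ℓ x : Hl N ℓ) : Gamma0 N) = jEquiv N (x : Gamma0 N) := rfl

variable [Fact ℓ.Prime]

theorem cAl_jH (x : Hl N ℓ) : cAl N ℓ (jH N ℓ x) = jConjGamma0 N (cAl N ℓ x) := by
  apply Subtype.ext
  apply SL_ext
  · rw [cAl_apply, cAlFun_00, jH_coe, jEquiv_apply, jConj_00, jConj_00, cAl_apply, cAlFun_00]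
  · rw [cAl_apply, cAlFun_01, jH_coe, jEquiv_apply, jConj_01, jConj_01, cAl_apply, cAlFun_01]
    exact Int.neg_ediv_of_dvd x.2
  · rw [cAl_apply, cAlFun_10, jH_coe, jEquiv_apply, jConj_10, jConj_10, cAl_apply, cAlFun_10]
    ring
  · rw [cAl_apply, cAlFun_11, jH_coe, jEquiv_apply, jConj_11, jConj_11, cAl_apply, cAlFun_11]

variable (R : Type*) [Semiring R] (A : Type*) [AddCommGroup A] [Module R A]

/-- `heckeCoh` commutes with `charInvolution`. -/
theorem heckeCoh_charInvolution (φ : Additive (Gamma0 N) →+ A) :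
    heckeCoh N ℓ A (charInvolution N R A φ) = charInvolution N R A (heckeCoh N ℓ A φ) := by
  refine AddMonoidHom.ext fun g => ?_
  obtain ⟨g, rfl⟩ := Additive.ofMul.surjective g
  rw [charInvolution_apply, heckeCoh_apply, heckeCoh_apply]
  have h1 : (charInvolution N R A φ).comp (MonoidHom.toAdditive (cAl N ℓ)) =
      (φ.comp (MonoidHom.toAdditive (cAl N ℓ))).comp (MonoidHom.toAdditive (jH N ℓ)) := by
    refine AddMonoidHom.ext fun x => ?_
    obtain ⟨x, rfl⟩ := Additive.ofMul.surjective x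
    show φ (Additive.ofMul (jConjGamma0 N (cAl N ℓ x))) = φ (Additive.ofMul (cAl N ℓ (jH N ℓ x)))
    rw [cAl_jH]
  rw [h1, trAdd_comp_equiv _ (jEquiv N) (jConj_mem_Hl_iff N ℓ) (jH N ℓ) (jH_coe N ℓ)]
  rfl

end Fermat.Agent.S16.HeckeCoh57
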